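import Mathlib.RingTheory.AdicCompletion.RingHom
import Mathlib.RingTheory.LocalRing.Quotient
import Fermat.Prelude.Thm_IsLocalRing_isAdicComplete_of_module_finite

set_option autoImplicit false

namespace Fermat.Agent.S53_helper15

open IsLocalRing

section Chevalley

variable {P : Type*} [CommRing P] (m : Ideal P) (K : ℕ → Ideal P)

theorem exists_seq_of_stab (hstab : ∀ n, K n ≤ K (n + 1) ⊔ m ^ n) (n : ℕ) {x : P}
    (hx : x ∈ K n) :
    ∃ y : ℕ → P, y 0 = x ∧ (∀ j, y j ∈ K (n + j)) ∧ ∀ j, y j - y (j + 1) ∈ m ^ (n + j) := by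
  have step : ∀ (j : ℕ) (a : {y : P // y ∈ K (n + j)}),
      ∃ b : {y : P // y ∈ K (n + (j + 1))}, a.1 - b.1 ∈ m ^ (n + j) := by
    intro j a
    obtain ⟨b, hb, c, hc, hbc⟩ := Submodule.mem_sup.mp (hstab (n + j) a.2)
    refine ⟨⟨b, hb⟩, ?_⟩
    have : a.1 - b = c := by rw [← hbc]; ring
    rw [this]
    exact hc
  choose g hg using step
  let y' : (j : ℕ) → {y : P // y ∈ K (n + j)} :=
    fun j => Nat.rec (motive := fun j => {y : P // y ∈ K (n + j)}) ⟨x, hx⟩ (fun j a => g j a) j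
  refine ⟨fun j => (y' j).1, rfl, fun j => (y' j).2, fun j => ?_⟩
  exact hg j (y' j)

theorem eq_iInf_sup_pow [IsPrecomplete m P] (hanti : Antitone K) (hpow : ∀ n, m ^ n ≤ K n)
    (hstab : ∀ n, K n ≤ K (n + 1) ⊔ m ^ n) (n : ℕ) : K n = (⨅ i, K i) ⊔ m ^ n := by
  refine le_antisymm ?_ (sup_le (iInf_le K n) (hpow n))
  intro x hx
  obtain ⟨y, hy0, hyK, hystep⟩ := exists_seq_of_stab m K hstab n hx
  have hdiff : ∀ j j', j ≤ j' → y j - y j' ∈ m ^ (n + j) := by
    intro j j' hjj'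
    induction j', hjj' using Nat.le_induction with
    | base => simp
    | succ j' hj' ih =>
      have h1 : y j' - y (j' + 1) ∈ m ^ (n + j) :=
        Ideal.pow_le_pow_right (by omega) (hystep j')
      have : y j - y (j' + 1) = (y j - y j') + (y j' - y (j' + 1)) := by ring
      rw [this]
      exact Ideal.add_mem _ ih h1
  let f : ℕ → P := fun t => y (t - n)
  have hf : ∀ {s t : ℕ}, s ≤ t → f s ≡ f t [SMOD (m ^ s • ⊤ : Submodule P P)] := by
    intro s t hst
    rw [SModEq.sub_mem, smul_eq_mul, Ideal.mul_top]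
    exact Ideal.pow_le_pow_right (by omega) (hdiff (s - n) (t - n) (by omega))
  obtain ⟨L, hL⟩ := IsPrecomplete.prec ‹_› hf
  have hL' : ∀ t, f t - L ∈ m ^ t := by
    intro t
    have := hL t
    rwa [SModEq.sub_mem, smul_eq_mul, Ideal.mul_top] at this
  have hLK : ∀ t, n ≤ t → L ∈ K t := by
    intro t hnt
    have h1 : f t ∈ K t := by
      have := hyK (t - n)
      rwa [show n + (t - n) = t by omega] at this
    have h2 : f t - L ∈ K t := hpow t (hL' t)
    have : L = f t - (f t - L) := by ring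
    rw [this]
    exact Ideal.sub_mem _ h1 h2
  have hLinf : L ∈ ⨅ i, K i := by
    rw [Ideal.mem_iInf]
    intro t
    rcases le_total n t with h | h
    · exact hLK t h
    · exact hanti h (hLK n le_rfl)
  have hxL : x - L ∈ m ^ n := by
    have := hL' n
    simpa [f, hy0] using this
  have : x = L + (x - L) := by ring
  rw [this]
  exact Submodule.add_mem_sup hLinf hxL

end Chevalley

section Quotient

variable {P : Type*} [CommRing P] [IsLocalRing P] (J : Ideal P)

theorem isLocalRing_quotient (hJ : J ≠ ⊤) : IsLocalRing (P ⧸ J) := by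
  have : Nontrivial (P ⧸ J) := Ideal.Quotient.nontrivial_iff.mpr hJ
  exact IsLocalRing.of_surjective' (Ideal.Quotient.mk J) Ideal.Quotient.mk_surjective

theorem isLocalHom_quotient_mk (hJ : J ≠ ⊤) : IsLocalHom (Ideal.Quotient.mk J) := by
  have : Nontrivial (P ⧸ J) := Ideal.Quotient.nontrivial_iff.mpr hJ
  exact IsLocalHom.of_surjective (Ideal.Quotient.mk J) Ideal.Quotient.mk_surjective

theorem map_mk_maximalIdeal [IsLocalRing (P ⧸ J)] :
    (maximalIdeal P).map (Ideal.Quotient.mk J) = maximalIdeal (P ⧸ J) := by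
  have hJ : J ≠ ⊤ := by
    intro h
    have : Subsingleton (P ⧸ J) := by
      rw [h]; exact Ideal.Quotient.subsingleton_iff.mpr rfl
    exact not_subsingleton (P ⧸ J) this
  have := isLocalHom_quotient_mk J hJ
  ext x
  obtain ⟨x, rfl⟩ := Ideal.Quotient.mk_surjective x
  simp [sup_eq_left.mpr (le_maximalIdeal hJ)]

theorem maximalIdeal_quotient_pow [IsLocalRing (P ⧸ J)] (n : ℕ) :
    maximalIdeal (P ⧸ J) ^ n = (maximalIdeal P ^ n).map (Ideal.Quotient.mk J) := by
  rw [Ideal.map_pow, map_mk_maximalIdeal]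

theorem comap_maximalIdeal_quotient_pow [IsLocalRing (P ⧸ J)] (n : ℕ) :
    (maximalIdeal (P ⧸ J) ^ n).comap (Ideal.Quotient.mk J) = J ⊔ maximalIdeal P ^ n := by
  rw [maximalIdeal_quotient_pow,
    Ideal.comap_map_of_surjective' _ Ideal.Quotient.mk_surjective, Ideal.mk_ker, sup_comm]

theorem isAdicComplete_quotient [IsNoetherianRing P] [IsAdicComplete (maximalIdeal P) P]
    [IsLocalRing (P ⧸ J)] : IsAdicComplete (maximalIdeal (P ⧸ J)) (P ⧸ J) := by
  have hJ : J ≠ ⊤ := by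
    intro h
    have : Subsingleton (P ⧸ J) := by
      rw [h]; exact Ideal.Quotient.subsingleton_iff.mpr rfl
    exact not_subsingleton (P ⧸ J) this
  have : IsLocalHom (algebraMap P (P ⧸ J)) := isLocalHom_quotient_mk J hJ
  exact IsLocalRing.isAdicComplete_of_module_finite (𝒪 := P) (T := P ⧸ J)

theorem ker_lift_eq_maximalIdeal_pow [IsLocalRing (P ⧸ J)] {S : Type*} [CommRing S]
    (f : P →+* S) (hJf : ∀ a ∈ J, f a = 0) (n : ℕ)
    (hker : RingHom.ker f = J ⊔ maximalIdeal P ^ n) :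
    RingHom.ker (Ideal.Quotient.lift J f hJf) = maximalIdeal (P ⧸ J) ^ n := by
  ext x
  obtain ⟨x, rfl⟩ := Ideal.Quotient.mk_surjective x
  rw [RingHom.mem_ker, Ideal.Quotient.lift_mk, ← RingHom.mem_ker, hker,
    ← comap_maximalIdeal_quotient_pow, Ideal.mem_comap]

theorem eq_zero_of_forall_mem_pow [IsNoetherianRing P] [IsAdicComplete (maximalIdeal P) P]
    [IsLocalRing (P ⧸ J)] {x : P ⧸ J} (hx : ∀ n, x ∈ maximalIdeal (P ⧸ J) ^ n) : x = 0 := by
  have := isAdicComplete_quotient J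
  apply IsHausdorff.haus (inferInstance : IsHausdorff (maximalIdeal (P ⧸ J)) (P ⧸ J))
  intro n
  rw [SModEq.zero, smul_eq_mul, Ideal.mul_top]
  exact hx n

end Quotient

section Tower

variable {P : Type*} [CommRing P] [IsLocalRing P] [IsNoetherianRing P]
  [IsAdicComplete (maximalIdeal P) P] (K : ℕ → Ideal P)

omit [IsNoetherianRing P] [IsAdicComplete (maximalIdeal P) P] in
theorem iInf_ne_top (h1 : K 1 ≤ maximalIdeal P) : (⨅ i, K i) ≠ ⊤ := by
  intro h
  have : (⊤ : Ideal P) ≤ maximalIdeal P := h ▸ (iInf_le K 1).trans h1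
  exact (maximalIdeal.isMaximal P).ne_top (top_le_iff.mp this)

omit [IsNoetherianRing P] in
theorem tower_eq_iInf_sup_pow (hanti : Antitone K) (hpow : ∀ n, maximalIdeal P ^ n ≤ K n)
    (hstab : ∀ n, K n ≤ K (n + 1) ⊔ maximalIdeal P ^ n) (n : ℕ) :
    K n = (⨅ i, K i) ⊔ maximalIdeal P ^ n :=
  eq_iInf_sup_pow (maximalIdeal P) K hanti hpow hstab n

omit [IsNoetherianRing P] in
theorem tower_ker_lift (hanti : Antitone K) (hpow : ∀ n, maximalIdeal P ^ n ≤ K n)
    (hstab : ∀ n, K n ≤ K (n + 1) ⊔ maximalIdeal P ^ n)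
    [IsLocalRing (P ⧸ ⨅ i, K i)] {S : Type*} [CommRing S] (n : ℕ)
    (f : P →+* S) (hker : RingHom.ker f = K n) :
    RingHom.ker (Ideal.Quotient.lift (⨅ i, K i) f
      (fun a ha => by
        have : a ∈ K n := (iInf_le K n) ha
        rwa [← hker] at this)) = maximalIdeal (P ⧸ ⨅ i, K i) ^ n :=
  ker_lift_eq_maximalIdeal_pow _ f _ n
    (hker.trans (tower_eq_iInf_sup_pow K hanti hpow hstab n))

end Tower

end Fermat.Agent.S53_helper15
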